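import Mathlib

set_option autoImplicit false
set_option linter.unusedSectionVars false

/-!
# S41 / E6 / Poly : for almost all `c` the polynomial `n - c d` has `deg n` distinct roots
-/

namespace Fermat.Agent.S41.E6

open Polynomial

variable {k : Type*} [Field k] [IsAlgClosed k] [CharZero k]

theorem wronskian_ne_zero {n d : k[X]} (hc : IsCoprime n d) (hn : 0 < n.natDegree) :
    derivative n * d - n * derivative d ≠ 0 := by
  intro h
  have h1 : n ∣ derivative n * d := ⟨derivative d, sub_eq_zero.mp h⟩
  have h2 : n ∣ derivative n := hc.dvd_of_dvd_mul_right h1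
  have hn0 : n ≠ 0 := by
    rintro rfl
    simp at hn
  have h3 : derivative n = 0 := eq_zero_of_dvd_of_degree_lt h2 (degree_derivative_lt hn0)
  have := derivative_eq_zero.mp h3
  omega

theorem exists_many_roots {n d : k[X]} (hc : IsCoprime n d) (hdeg : d.degree < n.degree)
    (Bad : Set k) (hBad : Bad.Finite) :
    ∃ (c : k) (S : Finset k), S.card = n.natDegree ∧
      ∀ x ∈ S, x ∉ Bad ∧ d.eval x ≠ 0 ∧ n.eval x = c * d.eval x := by
  classical
  by_cases hn : n.natDegree = 0
  · exact ⟨0, ∅, by simp [hn], by simp⟩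
  have hn' : 0 < n.natDegree := Nat.pos_of_ne_zero hn
  set w := derivative n * d - n * derivative d with hw
  have hw0 : w ≠ 0 := wronskian_ne_zero hc hn'
  have hfin : ((fun x => n.eval x / d.eval x) '' ((w.roots.toFinset : Set k) ∪ Bad)).Finite :=
    ((Finset.finite_toSet _).union hBad).image _
  obtain ⟨c, hcbad⟩ := hfin.exists_notMem
  set f := n - C c * d with hf
  have hlt : (C c * d).degree < n.degree := lt_of_le_of_lt (by
    by_cases hc0 : c = 0
    · simp [hc0]
    · rw [degree_C_mul hc0]) hdeg
  have hfdeg : f.degree = n.degree := degree_sub_eq_left_of_degree_lt hlt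
  have hfnat : f.natDegree = n.natDegree := natDegree_eq_of_degree_eq hfdeg
  have hf0 : f ≠ 0 := by
    intro h
    rw [h] at hfnat
    simp at hfnat
    omega
  have hev : ∀ x, n.eval x ≠ 0 ∨ d.eval x ≠ 0 := by
    intro x
    obtain ⟨a, b, hab⟩ := hc
    by_contra hcon
    push Not at hcon
    have := congrArg (eval x) hab
    simp [hcon.1, hcon.2] at this
  have hroot : ∀ x, f.IsRoot x → d.eval x ≠ 0 ∧ n.eval x = c * d.eval x := by
    intro x hx
    have h1 : n.eval x = c * d.eval x := by
      have : f.eval x = 0 := hx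
      rw [hf, eval_sub, eval_mul, eval_C] at this
      exact sub_eq_zero.mp this
    refine ⟨fun hd => ?_, h1⟩
    rw [hd, mul_zero] at h1
    rcases hev x with h | h
    · exact h h1
    · exact h hd
  have hnotbad : ∀ x, f.IsRoot x → x ∉ (w.roots.toFinset : Set k) ∪ Bad := by
    intro x hx hmem
    obtain ⟨hd, h1⟩ := hroot x hx
    apply hcbad
    refine ⟨x, hmem, ?_⟩
    show n.eval x / d.eval x = c
    rw [h1, mul_div_cancel_right₀ _ hd]
  have hmult : ∀ x, f.roots.count x ≤ 1 := by
    intro x
    rw [count_roots]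
    by_contra hcon
    push Not at hcon
    obtain ⟨hx, hx'⟩ := (one_lt_rootMultiplicity_iff_isRoot hf0).mp hcon
    apply hnotbad x hx
    left
    rw [Finset.mem_coe, Multiset.mem_toFinset, mem_roots hw0]
    obtain ⟨hd, h1⟩ := hroot x hx
    have h2 : (derivative n).eval x = c * (derivative d).eval x := by
      have : (derivative f).eval x = 0 := hx'
      rw [hf, derivative_sub, derivative_C_mul, eval_sub, eval_mul, eval_C] at this
      exact sub_eq_zero.mp this
    show w.eval x = 0
    rw [hw, eval_sub, eval_mul, eval_mul, h1, h2]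
    ring
  have hnodup : f.roots.Nodup := Multiset.nodup_iff_count_le_one.mpr hmult
  refine ⟨c, f.roots.toFinset, ?_, ?_⟩
  · rw [Multiset.toFinset_card_of_nodup hnodup, ← hfnat]
    exact IsAlgClosed.card_roots_eq_natDegree
  · intro x hx
    rw [Multiset.mem_toFinset, mem_roots hf0] at hx
    obtain ⟨hd, h1⟩ := hroot x hx
    exact ⟨fun hb => hnotbad x hx (Or.inr hb), hd, h1⟩

end Fermat.Agent.S41.E6
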