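import Fermat.Agent.S52.CH.Ladder
import Fermat.Agent.S52.CH.Base
import Fermat.Agent.S52.CH.Zero
import Fermat.Agent.S41.E6.Poly

set_option autoImplicit false
set_option linter.unusedSectionVars false

/-!
# S41 / E6 / Deg : `p ^ 2 ≤ 2 |E[p]|` over an algebraically closed field of characteristic zero
-/

namespace Fermat.Agent.S41.E6

open Polynomial WeierstrassCurve Fermat.Agent.S05 Fermat.Agent.S52.CH

variable {k : Type*} [Field k] [DecidableEq k] [IsAlgClosed k] {W : Affine k}

theorem hasDeg_nsmul (hpt : ∀ x : k, ∃ y, W.Nonsingular x y) (j : ℕ) :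
    HasDeg (fun P : W.Point => j • P) (j ^ 2) := by
  induction j using Nat.twoStepInduction with
  | zero =>
    refine ⟨1, 0, ?_, by simp⟩
    have : (fun P : W.Point => 0 • P) = fun _ => (0 : W.Point) := by
      funext P; exact zero_nsmul P
    rw [this]
    exact xrep_zero
  | one =>
    refine ⟨X, 1, ?_, by simp⟩
    have : (fun P : W.Point => 1 • P) = fun P => P := by
      funext P; exact one_nsmul P
    rw [this]
    exact xrep_id
  | more j h0 h1 =>
    obtain ⟨n₃, d₃, r₃, e₃⟩ := h0
    obtain ⟨n₁, d₁, r₁, e₁⟩ := h1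
    have r₃' : XRep (fun P : W.Point => (j + 1) • P - P) n₃ d₃ := by
      have : (fun P : W.Point => (j + 1) • P - P) = fun P => j • P := by
        funext P
        rw [succ_nsmul, add_sub_cancel_right]
      rw [this]
      exact r₃
    obtain ⟨n₄, d₄, r₄, e₄⟩ := XRep.ladder hpt r₁ (xrep_id (W := W)) r₃'
    refine ⟨n₄, d₄, ?_, ?_⟩
    · have : (fun P : W.Point => (j + 2) • P) = fun P => (j + 1) • P + P := by
        funext P
        exact succ_nsmul P (j + 1)
      rw [this]
      exact r₄
    · rw [e₁, e₃, natDegree_X] at e₄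
      nlinarith

variable [CharZero k]

/-- the `m`-torsion is finite and has at least `m ^ 2 / 2` elements. -/
theorem torsion_bound (hpt : ∀ x : k, ∃ y, W.Nonsingular x y) (m : ℕ) (hm : 0 < m) :
    {P : W.Point | m • P = 0}.Finite ∧ m ^ 2 ≤ 2 * {P : W.Point | m • P = 0}.ncard := by
  classical
  obtain ⟨n, d, r, e⟩ := hasDeg_nsmul hpt m
  choose Y hY using hpt
  let Pt : k → W.Point := fun x => .some x (Y x) (hY x)
  set Bad : Set k := {x | ¬ ∀ (y : k) (h : W.Nonsingular x y),
    pX (m • (.some x y h : W.Point)) * d.eval x = pZ (m • (.some x y h : W.Point)) * n.eval x}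
    with hBaddef
  have hBad : Bad.Finite := r.rel
  have hgood : ∀ x, x ∉ Bad → ∀ (y : k) (h : W.Nonsingular x y),
      pX (m • (.some x y h : W.Point)) * d.eval x = pZ (m • (.some x y h : W.Point)) * n.eval x := by
    intro x hx
    by_contra hcon
    exact hx hcon
  have hd0 : d ≠ 0 := by
    rintro rfl
    have h1 : IsUnit n := by
      have := r.coprime
      rwa [isCoprime_zero_right] at this
    have h2 := natDegree_eq_zero_of_isUnit h1
    rw [e] at h2
    have : 0 < m ^ 2 := by positivity
    omega
  have hfin : {P : W.Point | m • P = 0}.Finite := by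
    have hX : ((d.roots.toFinset : Set k) ∪ Bad).Finite := (Finset.finite_toSet _).union hBad
    refine (((hX.image Pt).union (hX.image fun x => - Pt x)).insert 0).subset ?_
    intro P hP
    cases P with
    | zero => exact Set.mem_insert _ _
    | some x y h =>
      right
      have hx : x ∈ (d.roots.toFinset : Set k) ∪ Bad := by
        by_cases hb : x ∈ Bad
        · exact Or.inr hb
        · left
          have h1 := hgood x hb y h
          have hP' : m • (.some x y h : W.Point) = 0 := hP
          rw [hP'] at h1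
          simp only [pX_zero, pZ_zero, one_mul, zero_mul] at h1
          rw [Finset.mem_coe, Multiset.mem_toFinset, mem_roots hd0]
          exact h1
      rcases zero_eq_or_eq_neg h (hY x) with h2 | h2
      · exact Or.inl ⟨x, hx, h2.symm⟩
      · exact Or.inr ⟨x, hx, h2.symm⟩
  refine ⟨hfin, ?_⟩
  obtain ⟨c, S, hS, hSprop⟩ := exists_many_roots r.coprime r.deg Bad hBad
  rw [e] at hS
  have hSne : S.Nonempty := by
    rw [← Finset.card_pos, hS]
    positivity
  obtain ⟨x₁, hx₁⟩ := hSne
  -- the multiples have abscissa `c`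
  have hmul : ∀ x ∈ S, ∃ (y' : k) (h' : W.Nonsingular c y'), m • Pt x = .some c y' h' := by
    intro x hx
    obtain ⟨hb, hd, hn⟩ := hSprop x hx
    have h1 := hgood x hb (Y x) (hY x)
    rw [hn] at h1
    have h2 : pX (m • Pt x) = pZ (m • Pt x) * c := by
      apply mul_right_cancel₀ hd
      rw [h1]; ring
    cases hQ : m • Pt x with
    | zero =>
      rw [hQ] at h2
      exact absurd h2 (by
        show ¬ (pX (0 : W.Point) = pZ (0 : W.Point) * c)
        simp)
    | some x' y' h' =>
      rw [hQ] at h2
      simp only [pX_some, pZ_some, one_mul] at h2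
      subst h2
      exact ⟨y', h', rfl⟩
  obtain ⟨y₁, h₁, hQ₁⟩ := hmul x₁ hx₁
  have hpm : ∀ x ∈ S, m • Pt x = m • Pt x₁ ∨ m • Pt x = - (m • Pt x₁) := by
    intro x hx
    obtain ⟨y', h', hQ⟩ := hmul x hx
    rw [hQ, hQ₁]
    exact zero_eq_or_eq_neg h' h₁
  have hPtinj : Function.Injective Pt := by
    intro a b hab
    simp only [Pt, Affine.Point.some.injEq] at hab
    exact hab.1
  set T := hfin.toFinset with hT
  have hTcard : {P : W.Point | m • P = 0}.ncard = T.card := Set.ncard_eq_toFinset_card _ hfin
  have hA : (S.filter fun x => m • Pt x = m • Pt x₁).card ≤ T.card := by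
    apply Finset.card_le_card_of_injOn (fun x => Pt x - Pt x₁)
    · intro x hx
      rw [Finset.coe_filter] at hx
      rw [hT, Set.Finite.coe_toFinset]
      show m • (Pt x - Pt x₁) = 0
      rw [nsmul_sub, hx.2, sub_self]
    · intro a _ b _ hab
      exact hPtinj (sub_left_injective hab)
  have hB : (S.filter fun x => ¬ m • Pt x = m • Pt x₁).card ≤ T.card := by
    apply Finset.card_le_card_of_injOn (fun x => Pt x + Pt x₁)
    · intro x hx
      rw [Finset.coe_filter] at hx
      rw [hT, Set.Finite.coe_toFinset]
      show m • (Pt x + Pt x₁) = 0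
      rw [nsmul_add, (hpm x hx.1).resolve_left hx.2, neg_add_cancel]
    · intro a _ b _ hab
      exact hPtinj (add_left_injective _ hab)
  have hsum := Finset.card_filter_add_card_filter_not (s := S) (fun x => m • Pt x = m • Pt x₁)
  rw [hTcard, ← hS]
  omega

end Fermat.Agent.S41.E6
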