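import Mathlib

set_option autoImplicit false

/-!
# S41 / E6 / Grp : a simple `𝔽_p[G]`-module on which `(g - 1)(g - χ g) = 0` has at most `p` elements
-/

namespace Fermat.Agent.S41.E6

section
variable {p : ℕ} [Fact p.Prime] {G V : Type*} [Group G] [AddCommGroup V] [Module (ZMod p) V]
  [DistribMulAction G V]

theorem grp_smul_comm (g : G) (c : ZMod p) (v : V) : g • (c • v) = c • (g • v) := by
  rw [← ZMod.natCast_zmod_val c, Nat.cast_smul_eq_nsmul, Nat.cast_smul_eq_nsmul]
  exact map_nsmul (DistribSMul.toAddMonoidHom V g) _ v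

theorem grp_p_nsmul (v : V) : p • v = 0 := by
  rw [← Nat.cast_smul_eq_nsmul (ZMod p), CharP.cast_eq_zero, zero_smul]

theorem grp_pow_smul (h : G) (v : V) (hv : h • (h • v - v) = h • v - v) (k : ℕ) :
    h ^ k • v = v + k • (h • v - v) := by
  induction k with
  | zero => simp
  | succ k ih =>
    rw [pow_succ', mul_smul, ih, smul_add]
    have : h • (k • (h • v - v)) = k • (h • v - v) := by
      have := map_nsmul (DistribSMul.toAddMonoidHom V h) k (h • v - v)
      simp only [DistribSMul.toAddMonoidHom_apply] at this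
      rw [this, hv]
    rw [this, succ_nsmul]
    abel

theorem card_le_of_rel [Finite V] [Nontrivial V] (χ : G →* (ZMod p)ˣ)
    (hrel : ∀ (g : G) (v : V),
      g • g • v - (1 + (χ g : ZMod p)) • (g • v) + (χ g : ZMod p) • v = 0)
    (hirr : ∀ N : Submodule (ZMod p) V, (∀ (g : G), ∀ x ∈ N, g • x ∈ N) → N = ⊥ ∨ N = ⊤) :
    Nat.card V ≤ p := by
  classical
  have hp : p.Prime := Fact.out
  -- Step 1 : elements of the kernel have order dividing `p` on `V`
  have h1 : ∀ h ∈ χ.ker, ∀ v : V, h ^ p • v = v := by
    intro h hh v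
    have hχ : χ h = 1 := hh
    have e := hrel h v
    rw [hχ, Units.val_one, one_smul, add_smul, one_smul] at e
    have hv : h • (h • v - v) = h • v - v := by
      rw [smul_sub]
      have : h • h • v - h • v - (h • v - v) = 0 := by rw [← e]; abel
      exact sub_eq_zero.mp this
    rw [grp_pow_smul h v hv, grp_p_nsmul, add_zero]
  -- Step 2 : a fixed vector
  let P : Subgroup (Equiv.Perm V) := χ.ker.map (MulAction.toPermHom G V)
  have hP : IsPGroup p P := by
    rintro ⟨π, h, hh, rfl⟩
    refine ⟨1, ?_⟩
    apply Subtype.ext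
    rw [pow_one, Subgroup.coe_pow, Subgroup.coe_one, ← map_pow]
    ext v
    exact h1 h hh v
  have hcard : p ∣ Nat.card V := by
    have hfin : Module.Finite (ZMod p) V := Module.Finite.of_finite
    have h2 : Nat.card V = p ^ Module.finrank (ZMod p) V := by
      have := Module.natCard_eq_pow_finrank (K := ZMod p) (V := V)
      rwa [Nat.card_zmod] at this
    rw [h2]
    exact dvd_pow_self p (Module.finrank_pos (R := ZMod p) (M := V)).ne'
  have h0 : (0 : V) ∈ MulAction.fixedPoints P V := by
    rintro ⟨π, h, hh, rfl⟩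
    exact smul_zero h
  obtain ⟨b, hb, hb0⟩ := hP.exists_fixed_point_of_prime_dvd_card_of_fixed_point V hcard h0
  -- Step 3 : the kernel acts trivially
  let N : Submodule (ZMod p) V :=
    { carrier := {v | ∀ h ∈ χ.ker, h • v = v}
      add_mem' := fun {a c} ha hc h hh => by rw [smul_add, ha h hh, hc h hh]
      zero_mem' := fun h _ => smul_zero h
      smul_mem' := fun c v hv h hh => by rw [grp_smul_comm, hv h hh] }
  have hNst : ∀ (g : G), ∀ x ∈ N, g • x ∈ N := by
    intro g x hx h hh
    have h3 : g⁻¹ * h * g ∈ χ.ker := by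
      have := (inferInstance : χ.ker.Normal).conj_mem h hh g⁻¹
      simpa using this
    have h4 := hx _ h3
    rw [mul_smul, mul_smul, inv_smul_eq_iff] at h4
    exact h4
  have hbN : b ∈ N := fun h hh => hb ⟨_, h, hh, rfl⟩
  have hNtop : N = ⊤ := by
    rcases hirr N hNst with h | h
    · exact absurd ((Submodule.mem_bot _).mp (h ▸ hbN)).symm hb0
    · exact h
  have hker : ∀ h ∈ χ.ker, ∀ v : V, h • v = v := fun h hh v =>
    (show v ∈ N by rw [hNtop]; trivial) h hh
  -- Step 4 : every element is a scalar
  have hscal : ∀ g : G, ∃ c : ZMod p, ∀ v : V, g • v = c • v := by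
    intro g
    let Ng : Submodule (ZMod p) V :=
      { carrier := {v | g • v = v}
        add_mem' := fun {a c} ha hc => by
          show g • (a + c) = a + c
          rw [smul_add, ha, hc]
        zero_mem' := smul_zero g
        smul_mem' := fun c v hv => by
          show g • (c • v) = c • v
          rw [grp_smul_comm, hv] }
    have hst : ∀ (g' : G), ∀ x ∈ Ng, g' • x ∈ Ng := by
      intro g' x hx
      show g • g' • x = g' • x
      have hc : g⁻¹ * g'⁻¹ * g * g' ∈ χ.ker := by
        rw [MonoidHom.mem_ker]
        simp only [map_mul, map_inv]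
        rw [mul_comm (χ g)⁻¹, mul_assoc, mul_assoc, ← mul_assoc (χ g)⁻¹, inv_mul_cancel, one_mul,
          inv_mul_cancel]
      have h5 := hker _ hc x
      have h6 : g * g' = g' * g * (g⁻¹ * g'⁻¹ * g * g') := by group
      rw [← mul_smul, h6, mul_smul, h5, mul_smul]
      have hx' : g • x = x := hx
      rw [hx']
    rcases hirr Ng hst with h | h
    · refine ⟨(χ g : ZMod p), fun v => ?_⟩
      have h7 : g • v - (χ g : ZMod p) • v ∈ Ng := by
        show g • (g • v - (χ g : ZMod p) • v) = g • v - (χ g : ZMod p) • v
        have e := hrel g v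
        rw [smul_sub, grp_smul_comm]
        rw [add_smul, one_smul] at e
        have : g • g • v - (χ g : ZMod p) • g • v - (g • v - (χ g : ZMod p) • v) = 0 := by
          rw [← e]; abel
        exact sub_eq_zero.mp this
      rw [h, Submodule.mem_bot] at h7
      exact sub_eq_zero.mp h7
    · refine ⟨1, fun v => ?_⟩
      rw [one_smul]
      exact (show v ∈ Ng by rw [h]; trivial)
  -- Step 5
  obtain ⟨v, hv⟩ := exists_ne (0 : V)
  have hspan : Submodule.span (ZMod p) {v} = ⊤ := by
    rcases hirr (Submodule.span (ZMod p) {v}) (by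
      intro g x hx
      obtain ⟨c, hc⟩ := hscal g
      rw [hc]
      exact Submodule.smul_mem _ _ hx) with h | h
    · exact absurd (Submodule.span_singleton_eq_bot.mp h) hv
    · exact h
  have hsurj : Function.Surjective (fun c : ZMod p => c • v) := by
    intro w
    have : w ∈ Submodule.span (ZMod p) {v} := by rw [hspan]; trivial
    exact Submodule.mem_span_singleton.mp this
  have := Nat.card_le_card_of_surjective _ hsurj
  rwa [Nat.card_zmod] at this

end

end Fermat.Agent.S41.E6
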