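import Fermat.Agent.S58.EC.FrobRel
import Fermat.Agent.S29.FDMain
import Fermat.Agent.S29.Cyclo

set_option autoImplicit false

/-!
# S41 / E6 / Rel : if `a_ℓ ≡ ℓ + 1 mod p` for almost all `ℓ`, then `(g - 1)(g - χ(g)) = 0` on `W[p]`
-/

namespace Fermat.Agent.S41.E6

open WeierstrassCurve WeierstrassCurve.Affine WeierstrassCurve.Affine.Point ExtCitation
open Fermat.Agent.S58 (Qb GQ EP)

theorem pow_rel_ring {R : Type*} [Ring R] (s : R) (ℓ : ℤ) (h : (s - 1) * (s - (ℓ : R)) = 0)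
    (b : ℕ) : (s ^ b - 1) * (s ^ b - (ℓ : R) ^ b) = 0 := by
  have c1 : Commute s 1 := Commute.one_right s
  have c2 : Commute s (ℓ : R) := (Int.cast_commute ℓ s).symm
  have e1 := c1.geom_sum₂_mul b
  have e2 := c2.mul_geom_sum₂ b
  rw [one_pow] at e1
  rw [← e1, ← e2, mul_assoc, ← mul_assoc (s - 1), h, zero_mul, mul_zero]

theorem pow_rel {T : Type*} [AddCommGroup T] (s : Module.End ℤ T) (ℓ : ℤ)
    (h : ∀ v, s (s v) - (ℓ + 1) • s v + ℓ • v = 0) (b : ℕ) (v : T) :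
    (s ^ b) ((s ^ b) v) - (ℓ ^ b + 1) • (s ^ b) v + ℓ ^ b • v = 0 := by
  have h1 : (s - 1) * (s - (ℓ : Module.End ℤ T)) = 0 := by
    ext w
    simp only [Module.End.mul_apply, LinearMap.sub_apply, Module.End.one_apply,
      Module.End.intCast_apply, map_sub, map_zsmul, LinearMap.zero_apply]
    rw [← h w]
    module
  have h4 := DFunLike.congr_fun (pow_rel_ring s ℓ h1 b) v
  rw [← Int.cast_pow] at h4
  simp only [Module.End.mul_apply, LinearMap.sub_apply, Module.End.one_apply,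
      Module.End.intCast_apply, map_sub, map_zsmul, LinearMap.zero_apply] at h4
  rw [← h4]
  module

/-- the coordinates of a point. -/
def coords {W : WeierstrassCurve ℤ} : EP W → Set Qb
  | .zero => ∅
  | .some x y _ => {x, y}

theorem finite_coords {W : WeierstrassCurve ℤ} (P : EP W) : (coords P).Finite := by
  cases P with
  | zero => exact Set.finite_empty
  | some x y h => exact (Set.toFinite ({x, y} : Set Qb))

theorem smul_eq_of_coords {W : WeierstrassCurve ℤ} (P : EP W) (τ₁ τ₂ : GQ)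
    (h : ∀ x ∈ coords P, τ₁ x = τ₂ x) : τ₁ • P = τ₂ • P := by
  cases P with
  | zero => rfl
  | some x y hxy =>
    have hx : τ₁ x = τ₂ x := h x (by simp [coords])
    have hy : τ₁ y = τ₂ y := h y (by simp [coords])
    rw [algEquiv_smul_def, algEquiv_smul_def]
    simp only [Point.map_some, Point.some.injEq]
    exact ⟨hx, hy⟩

/-- the `p`-torsion of `W(ℚ̄)`. -/
abbrev TW (W : WeierstrassCurve ℤ) (p : ℕ) : Type := Submodule.torsionBy ℤ (EP W) p

theorem coe_smul_TW {W : WeierstrassCurve ℤ} {p : ℕ} (σ : GQ) (v : TW W p) :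
    ((σ • v : TW W p) : EP W) = σ • (v : EP W) := rfl

/-- the action of `σ` as an endomorphism. -/
noncomputable def actEnd (W : WeierstrassCurve ℤ) (p : ℕ) (σ : GQ) : Module.End ℤ (TW W p) :=
  (DistribSMul.toAddMonoidHom (TW W p) σ).toIntLinearMap

theorem actEnd_apply {W : WeierstrassCurve ℤ} {p : ℕ} (σ : GQ) (v : TW W p) :
    actEnd W p σ v = σ • v := rfl

theorem actEnd_pow {W : WeierstrassCurve ℤ} {p : ℕ} (σ : GQ) (b : ℕ) (v : TW W p) :
    (actEnd W p σ ^ b) v = σ ^ b • v := by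
  induction b generalizing v with
  | zero => simp
  | succ b ih => rw [pow_succ, Module.End.mul_apply, ih, actEnd_apply, pow_succ, mul_smul]

theorem rel_W (W : WeierstrassCurve ℤ) (hΔ : W.Δ ≠ 0) {p : ℕ} [Fact p.Prime] (hp2 : p ≠ 2)
    (B : ℕ) (hB : B ≠ 0)
    (h : ∀ ℓ : ℕ, ℓ.Prime → W.IsGoodPrimeFor ℓ → ¬ ℓ ∣ B → ℓ ≠ p →
      ((W.apOfModel ℓ : ℤ) : ZMod p) = (ℓ : ZMod p) + 1)
    (g : GQ) (v : TW W p) :
    g • g • v - (1 + ((cycloChar p g : (ZMod p)ˣ) : ZMod p)) • (g • v)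
      + ((cycloChar p g : (ZMod p)ˣ) : ZMod p) • v = 0 := by
  classical
  have hp : p.Prime := Fact.out
  obtain ⟨ζ, hζ⟩ := Fermat.Agent.S14.TR.exists_primitiveRoot_Lb (p := p)
  set Sx : Set Qb := coords (v : EP W) ∪ coords (g • (v : EP W)) ∪ {ζ} with hSx
  have hfin : Sx.Finite := ((finite_coords _).union (finite_coords _)).union (Set.finite_singleton ζ)
  let L : IntermediateField ℚ Qb := IntermediateField.adjoin ℚ Sx
  have : Finite Sx := hfin
  have hL : FiniteDimensional ℚ L :=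
    IntermediateField.finiteDimensional_adjoin fun x _ =>
      (AlgebraicClosure.isAlgebraic ℚ).isIntegral.isIntegral x
  obtain ⟨ℓ, hℓ, hℓS, A, hA, σ, hσ, b, hb⟩ :=
    Fermat.Agent.S29.frobenius_density_lite L (B * p * W.Δ.natAbs).primeFactors g
  have hne : B * p * W.Δ.natAbs ≠ 0 :=
    mul_ne_zero (mul_ne_zero hB hp.ne_zero) (Int.natAbs_ne_zero.mpr hΔ)
  have hnd : ¬ ℓ ∣ B * p * W.Δ.natAbs := fun hd => hℓS (Nat.mem_primeFactors.mpr ⟨hℓ, hd, hne⟩)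
  have hℓB : ¬ ℓ ∣ B := fun hd => hnd ((hd.mul_right p).mul_right _)
  have hℓp' : ¬ ℓ ∣ p := fun hd => hnd ((hd.mul_left B).mul_right _)
  have hℓp : ℓ ≠ p := fun e => hℓp' (e ▸ dvd_rfl)
  have hℓΔ : ¬ (ℓ : ℤ) ∣ W.Δ := fun hd => hnd ((Int.natCast_dvd.mp hd).mul_left _)
  have hodd : Odd p := hp.odd_of_ne_two hp2
  have hmem : ∀ x ∈ Sx, (σ ^ b) x = g x := fun x hx => hb x (IntermediateField.subset_adjoin ℚ Sx hx)
  -- the relation for `σ`
  have hcong : (p : ℤ) ∣ W.apOfModel ℓ - ((ℓ : ℤ) + 1) := by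
    rw [← ZMod.intCast_zmod_eq_zero_iff_dvd]
    push_cast
    rw [h ℓ hℓ hℓΔ hℓB hℓp]
    ring
  obtain ⟨t, ht⟩ := hcong
  have hσrel : ∀ w : TW W p, actEnd W p σ (actEnd W p σ w) - ((ℓ : ℤ) + 1) • actEnd W p σ w
      + (ℓ : ℤ) • w = 0 := by
    intro w
    have hw : p • (w : EP W) = 0 := by
      have := (Submodule.mem_torsionBy_iff _ _).mp w.2
      rwa [natCast_zsmul] at this
    have h1 := Fermat.Agent.S58.frob_rel W hℓ hℓΔ A hA σ hσ hodd hℓp' (w : EP W) hw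
    have hσw : (p : ℤ) • (σ • (w : EP W)) = 0 := (Submodule.mem_torsionBy_iff _ _).mp (σ • w).2
    have h2 : W.apOfModel ℓ • σ • (w : EP W) = ((ℓ : ℤ) + 1) • σ • (w : EP W) := by
      have e : W.apOfModel ℓ = ((ℓ : ℤ) + 1) + t * p := by linarith
      rw [e, add_zsmul, mul_zsmul, hσw, zsmul_zero, add_zero]
    rw [h2] at h1
    apply Subtype.ext
    exact h1
  have hpow := pow_rel (actEnd W p σ) (ℓ : ℤ) hσrel b v
  rw [actEnd_pow, actEnd_pow] at hpow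
  -- `g = σ ^ b`
  have hg1 : g • v = σ ^ b • v := by
    apply Subtype.ext
    exact (smul_eq_of_coords _ _ _ fun x hx => hmem x (Or.inl (Or.inl hx))).symm
  have hg2 : g • g • v = σ ^ b • σ ^ b • v := by
    rw [← hg1]
    apply Subtype.ext
    exact (smul_eq_of_coords _ _ _ fun x hx => hmem x (Or.inl (Or.inr hx))).symm
  have hχ : ((cycloChar p g : (ZMod p)ˣ) : ZMod p) = (((ℓ : ℤ) ^ b : ℤ) : ZMod p) := by
    have e1 : ((cycloChar p g : (ZMod p)ˣ) : ZMod p)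
        = ((cycloChar p (σ ^ b) : (ZMod p)ˣ) : ZMod p) := by
      rw [coe_cycloChar, coe_cycloChar]
      apply Fermat.Agent.S14.TR.cycloExp_cast_eq_of_apply ζ hζ g
      rw [← hmem ζ (Or.inr rfl)]
      exact Fermat.Agent.S14.TR.apply_eq_pow_cycloExp ζ hζ.pow_eq_one (σ ^ b)
    rw [e1, map_pow, Units.val_pow_eq_pow_val,
      Fermat.Agent.S29.cycloChar_frobenius p hℓ hℓp A hA σ hσ]
    push_cast
    rfl
  have e2 : (1 + ((cycloChar p g : (ZMod p)ˣ) : ZMod p)) = ((((ℓ : ℤ) ^ b + 1 : ℤ)) : ZMod p) := by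
    rw [hχ]
    push_cast
    ring
  rw [e2, hχ, Int.cast_smul_eq_zsmul, Int.cast_smul_eq_zsmul, hg2, hg1]
  exact hpow

/-- the form with integral scalars on `W(ℚ̄)`. -/
theorem rel (W : WeierstrassCurve ℤ) (hΔ0 : W.Δ ≠ 0) (p : ℕ) [Fact p.Prime] (hp2 : p ≠ 2) (B : ℕ)
    (hB : B ≠ 0)
    (H : ∀ ℓ : ℕ, ℓ.Prime → W.IsGoodPrimeFor ℓ → ¬ ℓ ∣ B →
      ((W.apOfModel ℓ : ℤ) : ZMod p) = (ℓ : ZMod p) + 1)
    (g : GQ) (Q : EP W) (hQ : p • Q = 0) (c : ℤ)
    (hc : (c : ZMod p) = ((cycloChar p g : (ZMod p)ˣ) : ZMod p)) :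
    g • g • Q - (1 + c) • g • Q + c • Q = 0 := by
  have hmem : Q ∈ Submodule.torsionBy ℤ (EP W) p := by
    rw [Submodule.mem_torsionBy_iff, natCast_zsmul]
    exact hQ
  have h1 := rel_W W hΔ0 hp2 B hB (fun ℓ h1 h2 h3 _ => H ℓ h1 h2 h3) g ⟨Q, hmem⟩
  rw [← hc] at h1
  have e : (1 + (c : ZMod p)) = ((1 + c : ℤ) : ZMod p) := by push_cast; ring
  rw [e, Int.cast_smul_eq_zsmul, Int.cast_smul_eq_zsmul] at h1
  exact congrArg Subtype.val h1

end Fermat.Agent.S41.E6
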