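import Mathlib

set_option autoImplicit false

/-!
# S41 / E6 / VC : a change of variables induces an isomorphism of the groups of points
-/

namespace Fermat.Agent.S41.E6

open WeierstrassCurve WeierstrassCurve.Affine

variable {K : Type*} [Field K] (V : WeierstrassCurve K) (C : WeierstrassCurve.VariableChange K)

/-- the new `x`-coordinate. -/
def vcX (x : K) : K := (C.u⁻¹ : Kˣ) ^ 2 * (x - C.r)

/-- the new `y`-coordinate. -/
def vcY (x y : K) : K := (C.u⁻¹ : Kˣ) ^ 3 * (y - C.s * (x - C.r) - C.t)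

theorem vc_u_ne_zero : ((C.u⁻¹ : Kˣ) : K) ≠ 0 := Units.ne_zero _

theorem vcX_injective : Function.Injective (vcX C) := by
  intro x x' h
  have h1 := mul_left_cancel₀ (pow_ne_zero 2 (vc_u_ne_zero C)) h
  exact sub_left_injective h1

theorem vcY_injective (x : K) : Function.Injective (vcY C x) := by
  intro y y' h
  have h1 := mul_left_cancel₀ (pow_ne_zero 3 (vc_u_ne_zero C)) h
  exact sub_left_injective (sub_left_injective h1)

theorem vc_equation (x y : K) :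
    (C • V).toAffine.Equation (vcX C x) (vcY C x y) ↔ V.toAffine.Equation x y := by
  rw [equation_iff', equation_iff']
  simp only [variableChange_a₁, variableChange_a₂, variableChange_a₃, variableChange_a₄,
    variableChange_a₆, vcX, vcY]
  have hv := vc_u_ne_zero C
  generalize ((C.u⁻¹ : Kˣ) : K) = v at hv ⊢
  have e : (v ^ 3 * (y - C.s * (x - C.r) - C.t)) ^ 2
      + v * (V.a₁ + 2 * C.s) * (v ^ 2 * (x - C.r)) * (v ^ 3 * (y - C.s * (x - C.r) - C.t))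
      + v ^ 3 * (V.a₃ + C.r * V.a₁ + 2 * C.t) * (v ^ 3 * (y - C.s * (x - C.r) - C.t))
      - ((v ^ 2 * (x - C.r)) ^ 3
        + v ^ 2 * (V.a₂ - C.s * V.a₁ + 3 * C.r - C.s ^ 2) * (v ^ 2 * (x - C.r)) ^ 2
        + v ^ 4 * (V.a₄ - C.s * V.a₃ + 2 * C.r * V.a₂ - (C.t + C.r * C.s) * V.a₁ + 3 * C.r ^ 2
          - 2 * C.s * C.t) * (v ^ 2 * (x - C.r))
        + v ^ 6 * (V.a₆ + C.r * V.a₄ + C.r ^ 2 * V.a₂ + C.r ^ 3 - C.t * V.a₃ - C.t ^ 2
          - C.r * C.t * V.a₁))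
      = v ^ 6 * (y ^ 2 + V.a₁ * x * y + V.a₃ * y - (x ^ 3 + V.a₂ * x ^ 2 + V.a₄ * x + V.a₆)) := by
    ring
  rw [e, mul_eq_zero]
  exact ⟨fun h => h.resolve_left (pow_ne_zero 6 hv), Or.inr⟩

theorem vc_nonsingular (x y : K) :
    (C • V).toAffine.Nonsingular (vcX C x) (vcY C x y) ↔ V.toAffine.Nonsingular x y := by
  rw [nonsingular_iff', nonsingular_iff', vc_equation]
  refine and_congr_right fun _ => ?_
  simp only [variableChange_a₁, variableChange_a₂, variableChange_a₃, variableChange_a₄, vcX, vcY]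
  have hv := vc_u_ne_zero C
  generalize ((C.u⁻¹ : Kˣ) : K) = v at hv ⊢
  have e1 : v * (V.a₁ + 2 * C.s) * (v ^ 3 * (y - C.s * (x - C.r) - C.t))
      - (3 * (v ^ 2 * (x - C.r)) ^ 2
        + 2 * (v ^ 2 * (V.a₂ - C.s * V.a₁ + 3 * C.r - C.s ^ 2)) * (v ^ 2 * (x - C.r))
        + v ^ 4 * (V.a₄ - C.s * V.a₃ + 2 * C.r * V.a₂ - (C.t + C.r * C.s) * V.a₁ + 3 * C.r ^ 2
          - 2 * C.s * C.t))
      = v ^ 4 * ((V.a₁ * y - (3 * x ^ 2 + 2 * V.a₂ * x + V.a₄))
        + C.s * (2 * y + V.a₁ * x + V.a₃)) := by ring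
  have e2 : 2 * (v ^ 3 * (y - C.s * (x - C.r) - C.t))
      + v * (V.a₁ + 2 * C.s) * (v ^ 2 * (x - C.r)) + v ^ 3 * (V.a₃ + C.r * V.a₁ + 2 * C.t)
      = v ^ 3 * (2 * y + V.a₁ * x + V.a₃) := by ring
  rw [e1, e2]
  have h4 := pow_ne_zero 4 hv
  have h3 := pow_ne_zero 3 hv
  by_cases hy : 2 * y + V.a₁ * x + V.a₃ = 0
  · simp [hy, h4]
  · simp [hy, h3]

theorem vc_negY (x y : K) :
    (C • V).toAffine.negY (vcX C x) (vcY C x y) = vcY C x (V.toAffine.negY x y) := by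
  simp only [negY, variableChange_a₁, variableChange_a₃, vcX, vcY]
  ring

theorem vc_addX (x₁ x₂ ℓ : K) :
    (C • V).toAffine.addX (vcX C x₁) (vcX C x₂) ((C.u⁻¹ : Kˣ) * (ℓ - C.s))
      = vcX C (V.toAffine.addX x₁ x₂ ℓ) := by
  simp only [addX, variableChange_a₁, variableChange_a₂, vcX]
  ring

theorem vc_addY (x₁ x₂ y₁ ℓ : K) :
    (C • V).toAffine.addY (vcX C x₁) (vcX C x₂) (vcY C x₁ y₁) ((C.u⁻¹ : Kˣ) * (ℓ - C.s))
      = vcY C (V.toAffine.addX x₁ x₂ ℓ) (V.toAffine.addY x₁ x₂ y₁ ℓ) := by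
  simp only [addY, negAddY, negY, addX, variableChange_a₁, variableChange_a₂, variableChange_a₃,
    vcX, vcY]
  ring

variable [DecidableEq K]

theorem vc_slope {x₁ x₂ y₁ y₂ : K} (h₁ : V.toAffine.Equation x₁ y₁)
    (h₂ : V.toAffine.Equation x₂ y₂) (hxy : ¬(x₁ = x₂ ∧ y₁ = V.toAffine.negY x₂ y₂)) :
    (C • V).toAffine.slope (vcX C x₁) (vcX C x₂) (vcY C x₁ y₁) (vcY C x₂ y₂)
      = (C.u⁻¹ : Kˣ) * (V.toAffine.slope x₁ x₂ y₁ y₂ - C.s) := by
  have hv := vc_u_ne_zero C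
  by_cases hx : x₁ = x₂
  · subst hx
    have hy : y₁ ≠ V.toAffine.negY x₁ y₂ := fun h => hxy ⟨rfl, h⟩
    have hy' : vcY C x₁ y₁ ≠ (C • V).toAffine.negY (vcX C x₁) (vcY C x₁ y₂) := by
      rw [vc_negY]
      exact fun h => hy (vcY_injective C x₁ h)
    rw [slope_of_Y_ne rfl hy, slope_of_Y_ne rfl hy', vc_negY]
    have hyy : y₁ = y₂ := Y_eq_of_Y_ne h₁ h₂ rfl hy
    subst hyy
    have h1 : y₁ - V.toAffine.negY x₁ y₁ ≠ 0 := sub_ne_zero.2 hy
    simp only [variableChange_a₁, variableChange_a₂, variableChange_a₄, vcX, vcY, negY] at h1 ⊢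
    generalize ((C.u⁻¹ : Kˣ) : K) = v at hv ⊢
    have e1 : v ^ 3 * (y₁ - C.s * (x₁ - C.r) - C.t)
        - v ^ 3 * (-y₁ - V.a₁ * x₁ - V.a₃ - C.s * (x₁ - C.r) - C.t)
        = v ^ 3 * (y₁ - (-y₁ - V.a₁ * x₁ - V.a₃)) := by ring
    rw [e1]
    have h1' : y₁ - (-y₁ - V.a₁ * x₁ - V.a₃) ≠ 0 := h1
    obtain ⟨d, hd⟩ : ∃ d, d = y₁ - (-y₁ - V.a₁ * x₁ - V.a₃) := ⟨_, rfl⟩
    rw [← hd] at h1' ⊢
    field_simp
    rw [hd]
    ring
  · have hx' : vcX C x₁ ≠ vcX C x₂ := fun h => hx (vcX_injective C h)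
    rw [slope_of_X_ne hx, slope_of_X_ne hx']
    have h1 : x₁ - x₂ ≠ 0 := sub_ne_zero.2 hx
    simp only [vcX, vcY]
    generalize ((C.u⁻¹ : Kˣ) : K) = v at hv ⊢
    have h2 : v ^ 2 * (x₁ - C.r) - v ^ 2 * (x₂ - C.r) = v ^ 2 * (x₁ - x₂) := by ring
    rw [h2]
    field_simp
    ring

/-- the map on points. -/
def vcFun : V.toAffine.Point → (C • V).toAffine.Point
  | .zero => .zero
  | .some x y h => .some (vcX C x) (vcY C x y) ((vc_nonsingular V C x y).2 h)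

/-- the homomorphism on points. -/
def vcHom : V.toAffine.Point →+ (C • V).toAffine.Point where
  toFun := vcFun V C
  map_zero' := rfl
  map_add' := by
    rintro (_ | ⟨x₁, y₁, h₁⟩) (_ | ⟨x₂, y₂, h₂⟩)
    any_goals rfl
    by_cases hxy : x₁ = x₂ ∧ y₁ = V.toAffine.negY x₂ y₂
    · rw [Point.add_of_Y_eq hxy.1 hxy.2]
      exact (Point.add_of_Y_eq (congrArg _ hxy.1) (by
        rw [vc_negY, hxy.2, hxy.1])).symm
    · have hxy' : ¬(vcX C x₁ = vcX C x₂ ∧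
          vcY C x₁ y₁ = (C • V).toAffine.negY (vcX C x₂) (vcY C x₂ y₂)) := by
        rintro ⟨h1, h2⟩
        have hx := vcX_injective C h1
        subst hx
        rw [vc_negY] at h2
        exact hxy ⟨rfl, vcY_injective C x₁ h2⟩
      rw [Point.add_some hxy]
      refine Eq.trans ?_ (Point.add_some hxy').symm
      show Point.some _ _ _ = Point.some _ _ _
      simp only [Point.some.injEq]
      rw [vc_slope V C h₁.1 h₂.1 hxy, vc_addX, vc_addY]
      exact ⟨rfl, rfl⟩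

theorem vcHom_bijective : Function.Bijective (vcHom V C) := by
  constructor
  · rintro (_ | ⟨x₁, y₁, h₁⟩) (_ | ⟨x₂, y₂, h₂⟩) h
    · rfl
    · exact absurd h (by rintro ⟨⟩)
    · exact absurd h (by rintro ⟨⟩)
    · have h' : Point.some (vcX C x₁) (vcY C x₁ y₁) ((vc_nonsingular V C x₁ y₁).2 h₁)
          = Point.some (vcX C x₂) (vcY C x₂ y₂) ((vc_nonsingular V C x₂ y₂).2 h₂) := h
      simp only [Point.some.injEq] at h'
      have hx := vcX_injective C h'.1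
      subst hx
      have hy := vcY_injective C x₁ h'.2
      subst hy
      rfl
  · rintro (_ | ⟨x', y', h'⟩)
    · exact ⟨0, rfl⟩
    · have hu : ((C.u⁻¹ : Kˣ) : K) * (C.u : K) = 1 := by
        rw [← Units.val_mul, inv_mul_cancel, Units.val_one]
      have ex : vcX C ((C.u : K) ^ 2 * x' + C.r) = x' := by
        unfold vcX
        linear_combination (((C.u⁻¹ : Kˣ) : K) * (C.u : K) + 1) * x' * hu
      have ey : vcY C ((C.u : K) ^ 2 * x' + C.r)
          ((C.u : K) ^ 3 * y' + (C.u : K) ^ 2 * C.s * x' + C.t) = y' := by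
        unfold vcY
        linear_combination ((((C.u⁻¹ : Kˣ) : K) * (C.u : K)) ^ 2
          + ((C.u⁻¹ : Kˣ) : K) * (C.u : K) + 1) * y' * hu
      have hns : V.toAffine.Nonsingular ((C.u : K) ^ 2 * x' + C.r)
          ((C.u : K) ^ 3 * y' + (C.u : K) ^ 2 * C.s * x' + C.t) := by
        rw [← vc_nonsingular V C, ex, ey]
        exact h'
      refine ⟨.some _ _ hns, ?_⟩
      show Point.some _ _ _ = Point.some _ _ _
      simp only [Point.some.injEq]
      exact ⟨ex, ey⟩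

theorem exists_vc_equiv {K : Type*} [Field K] [DecidableEq K] (V V' : WeierstrassCurve K)
    (C : WeierstrassCurve.VariableChange K) (h : V' = C • V) :
    ∃ φ : V.toAffine.Point ≃+ V'.toAffine.Point, ∀ (x y : K) (hxy : V.toAffine.Nonsingular x y),
      ∃ hxy', φ (.some x y hxy) = .some ((C.u⁻¹ : Kˣ) ^ 2 * (x - C.r))
        ((C.u⁻¹ : Kˣ) ^ 3 * (y - C.s * (x - C.r) - C.t)) hxy' := by
  subst h
  exact ⟨AddEquiv.ofBijective (vcHom V C) (vcHom_bijective V C), fun x y hxy =>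
    ⟨(vc_nonsingular V C x y).2 hxy, rfl⟩⟩

end Fermat.Agent.S41.E6
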