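import Fermat.Agent.S41.Defs
import Fermat.Agent.S41.E6.Grp
import Fermat.Agent.S41.E6.Deg
import Fermat.Agent.S41.E6.VC
import Fermat.Agent.S41.E6.Rel
import Fermat.Agent.S51.Exist

set_option autoImplicit false

/-!
# S41 / E6 : an irreducible `E[p]` has a good prime `ℓ` with `a_ℓ ≢ ℓ + 1 (mod p)`
-/

open WeierstrassCurve WeierstrassCurve.Affine WeierstrassCurve.Affine.Point

namespace Fermat.Agent.S41.E6

open Fermat.Agent.S58 (Qb GQ EP)

/-- the two curves over `ℚ̄` differ by a rational change of variables. -/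
theorem curve_eq (E : WeierstrassCurve ℚ) (W : WeierstrassCurve ℤ) (C : VariableChange ℚ)
    (hC : C • E = W.map (Int.castRingHom ℚ)) :
    (W⁄Qb) = (C.map (algebraMap ℚ Qb)) • (E⁄Qb) := by
  show W.map (algebraMap ℤ Qb) = (C.map (algebraMap ℚ Qb)) • (E.map (algebraMap ℚ Qb))
  rw [WeierstrassCurve.map_variableChange, hC, WeierstrassCurve.map_map]
  congr 1

theorem delta_ne_zero (E : WeierstrassCurve ℚ) [E.IsElliptic] (W : WeierstrassCurve ℤ)
    (hW : W.IsIntegralModelOf E) : W.Δ ≠ 0 := by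
  obtain ⟨C, hC⟩ := hW
  intro h0
  have h1 : (W.map (Int.castRingHom ℚ)).Δ = 0 := by
    rw [WeierstrassCurve.map_Δ, h0, _root_.map_zero]
  rw [← hC] at h1
  exact (C • E).isUnit_Δ.ne_zero h1

/-- the Galois equivariant isomorphism `E(ℚ̄) ≃ W(ℚ̄)`. -/
theorem exists_equiv (E : WeierstrassCurve ℚ) (W : WeierstrassCurve ℤ)
    (hW : W.IsIntegralModelOf E) :
    ∃ φ : (E⁄Qb).Point ≃+ (W⁄Qb).Point, ∀ (σ : GQ) (P : (E⁄Qb).Point), φ (σ • P) = σ • φ P := by
  obtain ⟨C, hC⟩ := hW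
  obtain ⟨φ, hφ⟩ := exists_vc_equiv (E⁄Qb) (W⁄Qb) (C.map (algebraMap ℚ Qb)) (curve_eq E W C hC)
  refine ⟨φ, ?_⟩
  intro σ P
  rcases P with _ | ⟨x, y, h⟩
  · have e1 : σ • (Point.zero : (E⁄Qb).Point) = 0 := rfl
    have e2 : (Point.zero : (E⁄Qb).Point) = 0 := rfl
    rw [e1, e2, _root_.map_zero]
    rfl
  · have e1 : σ • (Point.some x y h : (E⁄Qb).Point) =
        Point.some (σ x) (σ y) ((Affine.baseChange_nonsingular (W := E) σ.toAlgHom.injective ..).mpr h) := rfl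
    obtain ⟨h1, hh1⟩ := hφ x y h
    obtain ⟨h2, hh2⟩ := hφ (σ x) (σ y) ((Affine.baseChange_nonsingular (W := E) σ.toAlgHom.injective ..).mpr h)
    rw [e1, hh2, hh1]
    have e3 : ∀ (a b : Qb) (hab : (W⁄Qb).Nonsingular a b), σ • (Point.some a b hab : (W⁄Qb).Point) =
        Point.some (σ a) (σ b) ((Affine.baseChange_nonsingular (W := W) σ.toAlgHom.injective ..).mpr hab) :=
      fun _ _ _ => rfl
    rw [e3]
    have hu : σ (((C.map (algebraMap ℚ Qb)).u⁻¹ : Qbˣ) : Qb) =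
        (((C.map (algebraMap ℚ Qb)).u⁻¹ : Qbˣ) : Qb) := by
      have : (((C.map (algebraMap ℚ Qb)).u⁻¹ : Qbˣ) : Qb) = algebraMap ℚ Qb ((C.u⁻¹ : ℚˣ) : ℚ) := by
        simp [VariableChange.map]
      rw [this, AlgEquiv.commutes]
    have hr : σ (C.map (algebraMap ℚ Qb)).r = (C.map (algebraMap ℚ Qb)).r := σ.commutes _
    have hs : σ (C.map (algebraMap ℚ Qb)).s = (C.map (algebraMap ℚ Qb)).s := σ.commutes _
    have ht : σ (C.map (algebraMap ℚ Qb)).t = (C.map (algebraMap ℚ Qb)).t := σ.commutes _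
    congr 1
    · simp only [map_mul, map_pow, map_sub, hu, hr]
    · simp only [map_mul, map_pow, map_sub, hu, hr, hs, ht]

/-- general form: outside any finite set of primes there is a good `ℓ` with
`a_ℓ ≢ ℓ + 1 (mod p)`. -/
theorem e6_general (E : WeierstrassCurve ℚ) [E.IsElliptic] {W : WeierstrassCurve ℤ}
    (hW : W.IsIntegralModelOf E) {p : ℕ} (hp : p.Prime) (hp2 : p ≠ 2)
    (hirr : GaloisRepIsIrreducible (K := AlgebraicClosure ℚ) ℚ E p) (B : ℕ) (hB : B ≠ 0) :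
    ∃ ℓ : ℕ, ℓ.Prime ∧ W.IsGoodPrimeFor ℓ ∧ ¬ ℓ ∣ B ∧
      ((W.apOfModel ℓ : ℤ) : ZMod p) ≠ (ℓ : ZMod p) + 1 := by
  by_contra hcon
  push Not at hcon
  have : Fact p.Prime := ⟨hp⟩
  obtain ⟨φ, hφ⟩ := exists_equiv E W hW
  have hΔ0 := delta_ne_zero E W hW
  have : Nontrivial (Submodule.torsionBy ℤ (E⁄Qb).Point p) := hirr.1
  have hΔE : (E⁄Qb).Δ ≠ 0 := by
    show (E.map (algebraMap ℚ Qb)).Δ ≠ 0
    rw [WeierstrassCurve.map_Δ]
    intro h
    exact E.isUnit_Δ.ne_zero ((map_eq_zero _).mp h)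
  obtain ⟨hfin, hcard⟩ := torsion_bound (W := (E⁄Qb).toAffine)
    (S51.exists_nonsingular (E⁄Qb).toAffine hΔE) p hp.pos
  have hset : ((Submodule.torsionBy ℤ (E⁄Qb).Point p : Submodule ℤ (E⁄Qb).Point) :
      Set (E⁄Qb).Point) = {P : (E⁄Qb).Point | p • P = 0} := by
    ext P
    simp only [SetLike.mem_coe, Submodule.mem_torsionBy_iff, Set.mem_ofPred_eq, natCast_zsmul]
  have hfinV : Finite (Submodule.torsionBy ℤ (E⁄Qb).Point p) := by
    have : Finite ((Submodule.torsionBy ℤ (E⁄Qb).Point p : Submodule ℤ (E⁄Qb).Point) :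
      Set (E⁄Qb).Point) := by
      rw [hset]; exact hfin.to_subtype
    exact this
  have hcardV : Nat.card (Submodule.torsionBy ℤ (E⁄Qb).Point p) =
      {P : (E⁄Qb).Point | p • P = 0}.ncard := by
    rw [← hset]
    exact _root_.Nat.card_coe_set_eq _
  have hle : Nat.card (Submodule.torsionBy ℤ (E⁄Qb).Point p) ≤ p := by
    refine card_le_of_rel (G := GQ) (ExtCitation.cycloChar p) ?_ hirr.2
    intro g v
    obtain ⟨c, hc⟩ : ∃ c : ℤ, (c : ZMod p) = ((ExtCitation.cycloChar p g : (ZMod p)ˣ) : ZMod p) :=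
      ⟨_, ZMod.intCast_zmod_cast _⟩
    have h1c : (1 + ((ExtCitation.cycloChar p g : (ZMod p)ˣ) : ZMod p)) = ((1 + c : ℤ) : ZMod p) := by
      rw [← hc]; push_cast; rfl
    rw [h1c, ← hc, Int.cast_smul_eq_zsmul, Int.cast_smul_eq_zsmul]
    apply Subtype.ext
    apply φ.injective
    have hv : p • φ (v : (E⁄Qb).Point) = 0 := by
      rw [← map_nsmul]
      have := v.2
      rw [Submodule.mem_torsionBy_iff, natCast_zsmul] at this
      rw [this, _root_.map_zero]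
    have key := rel W hΔ0 p hp2 B hB hcon g (φ (v : (E⁄Qb).Point)) hv c hc
    have e : ((g • g • v - (1 + c) • g • v + c • v : Submodule.torsionBy ℤ (E⁄Qb).Point p) :
        (E⁄Qb).Point) = g • g • (v : (E⁄Qb).Point) - (1 + c) • g • (v : (E⁄Qb).Point)
          + c • (v : (E⁄Qb).Point) := rfl
    rw [e, map_add, map_sub, map_zsmul, map_zsmul, hφ, hφ, key]
    exact (_root_.map_zero φ).symm
  rw [← hcardV] at hcard
  have h3 : 3 ≤ p := by
    have := hp.two_le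
    omega
  nlinarith

/-- **(E6)** in the shape of `S41/Defs.lean`. -/
theorem e6 (E : WeierstrassCurve ℚ) [E.IsElliptic] {W : WeierstrassCurve ℤ}
    (hW : W.IsIntegralModelOf E) {p N q : ℕ} [NeZero N] [NeZero q] (hp : p.Prime) (hp2 : p ≠ 2)
    (hirr : GaloisRepIsIrreducible (K := AlgebraicClosure ℚ) ℚ E p) :
    E6 N q W p := by
  obtain ⟨ℓ, h1, h2, h3, h4⟩ := e6_general E hW hp hp2 hirr (N * q * p)
    (Nat.mul_ne_zero (Nat.mul_ne_zero (NeZero.ne N) (NeZero.ne q)) hp.ne_zero)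
  refine ⟨ℓ, ⟨h1, h2, fun h => h3 (Dvd.dvd.mul_right h p), ?_⟩, ?_⟩
  · rintro rfl
    exact h3 (Dvd.intro_left _ rfl)
  · intro h
    apply h4
    have : aP W p ℓ = ((W.apOfModel ℓ : ℤ) : ZMod p) := rfl
    rw [← this, h]
    push_cast
    rfl

end Fermat.Agent.S41.E6
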