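import Fermat.Agent.S58.EC.Tors

/-!
# S41 (E6), leaf (L-Rank): the `p`-torsion of an elliptic curve over an algebraically closed field
of characteristic zero is not cyclic
-/

set_option autoImplicit false
set_option linter.unusedSectionVars false

namespace Fermat.Agent.S41.E6

open WeierstrassCurve WeierstrassCurve.Affine Polynomial Fermat.Agent.S05 Fermat.Agent.S13
  Fermat.Agent.S58

/-- a finite set of `p`-torsion multiples of one element has at most `p` elements. -/
theorem card_le_of_multiples {G : Type*} [AddCommGroup G] [DecidableEq G] (P : G) {p : ℕ}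
    (hp : 0 < p) (T : Finset G) (hT : ∀ Q ∈ T, p • Q = 0 ∧ ∃ k : ℕ, Q = k • P) : T.card ≤ p := by
  by_cases hP : IsOfFinAddOrder P
  · have : Finite (AddSubgroup.zmultiples P) := hP.finite_zmultiples.to_subtype
    have := Fintype.ofFinite (AddSubgroup.zmultiples P)
    have h := IsAddCyclic.card_nsmul_eq_zero_le (α := AddSubgroup.zmultiples P) hp
    refine le_trans ?_ h
    refine le_trans (Finset.card_le_card (t := (Finset.univ.filter
      (fun a : AddSubgroup.zmultiples P => p • a = 0)).image Subtype.val) ?_) Finset.card_image_le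
    intro Q hQ
    obtain ⟨h1, k, hk⟩ := hT Q hQ
    rw [Finset.mem_image]
    refine ⟨⟨Q, ?_⟩, ?_, rfl⟩
    · rw [hk]
      exact AddSubgroup.nsmul_mem _ (AddSubgroup.mem_zmultiples P) k
    · rw [Finset.mem_filter]
      exact ⟨Finset.mem_univ _, Subtype.ext h1⟩
  · have : T ⊆ {0} := by
      intro Q hQ
      obtain ⟨h1, k, hk⟩ := hT Q hQ
      rw [Finset.mem_singleton]
      rw [hk, ← mul_nsmul] at h1
      rcases Nat.eq_zero_or_pos (k * p) with h0 | h0
      · rcases Nat.mul_eq_zero.1 h0 with h0 | h0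
        · rw [hk, h0, zero_nsmul]
        · omega
      · exact absurd (isOfFinAddOrder_iff_nsmul_eq_zero.2 ⟨_, h0, h1⟩) hP
    exact (Finset.card_le_card this).trans (by rw [Finset.card_singleton]; exact hp)

lemma IsLead.derivative' {R : Type*} [CommRing R] {P : R[X]} {d : ℕ} {c : R}
    (h : IsLead P (d + 1) c) : IsLead (derivative P) d (c * ((d : R) + 1)) :=
  ⟨(natDegree_derivative_le P).trans (by have := h.1; omega), by rw [coeff_derivative, h.2]⟩

section Gen

variable {K : Type*} [Field K] [DecidableEq K] [CharZero K] [IsAlgClosed K]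
  (V : WeierstrassCurve.Affine K)

theorem lad_not_both_zero (hΔ : V.Δ ≠ 0) (m : ℕ) (x : K) :
    (lad V m).1.eval x ≠ 0 ∨ (lad V m).2.eval x ≠ 0 := by
  obtain ⟨y, h⟩ := Fermat.Agent.S51.exists_nonsingular V hΔ x
  obtain ⟨c, hc0, hA, hB⟩ := lad_eval V h m
  by_cases hz : pZ (m • Point.some x y h) = 0
  · left
    rw [hA, (pZ_eq_zero_iff _).1 hz, pX_zero, mul_one]
    exact hc0
  · right
    rw [hB]
    exact mul_ne_zero hc0 hz

theorem lad_wronskian_ne_zero {m : ℕ} (hm : 2 ≤ m) :
    derivative (lad V m).1 * (lad V m).2 - (lad V m).1 * derivative (lad V m).2 ≠ 0 := by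
  obtain ⟨n, hn⟩ : ∃ n, m ^ 2 = n + 2 := ⟨m ^ 2 - 2, by have : 4 ≤ m ^ 2 := by nlinarith
                                                        omega⟩
  have hA : IsLead (lad V m).1 (n + 1 + 1) 1 := by
    have := (lad_isLead V m).1
    rwa [hn] at this
  have hB : IsLead (lad V m).2 (n + 1) ((m : K) ^ 2) := by
    have := tors_B_isLead V (m := m) (by omega)
    rwa [hn] at this
  have hmK : (m : K) ^ 2 = (n : K) + 2 := by
    have : ((m ^ 2 : ℕ) : K) = ((n + 2 : ℕ) : K) := by rw [hn]
    push_cast at this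
    exact this
  have h1 := (IsLead.derivative' hA).mul hB
  have h2 := (hA.mul (IsLead.derivative' hB)).congr (d' := n + 1 + (n + 1)) (by ring) rfl
  have h3 := (h1.sub h2).2
  intro h0
  rw [h0, coeff_zero, hmK] at h3
  have h4 : ((n : K) + 2) = 0 := by
    push_cast at h3
    linear_combination -h3
  have h5 : ((n + 2 : ℕ) : K) = 0 := by push_cast; exact h4
  exact absurd (Nat.cast_eq_zero.1 h5) (by omega)

/-- the fibre of multiplication by `m` above a point with a root of `A - x₀ B`. -/
theorem exists_nsmul_eq_of_root {m : ℕ} (hΔ : V.Δ ≠ 0) {xR yR : K} (hR : V.Nonsingular xR yR)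
    {x : K} (hx : ((lad V m).1 - C xR * (lad V m).2).eval x = 0) :
    ∃ Q : V.Point, m • Q = Point.some xR yR hR ∧ pX Q = x := by
  obtain ⟨y, h⟩ := Fermat.Agent.S51.exists_nonsingular V hΔ x
  obtain ⟨c, hc0, hA, hB⟩ := lad_eval V h m
  rw [eval_sub, eval_mul, eval_C, hA, hB] at hx
  have key : pX (m • Point.some x y h) = xR * pZ (m • Point.some x y h) := by
    apply mul_left_cancel₀ hc0
    linear_combination hx
  rcases hmP : m • Point.some x y h with _ | ⟨x', y', h'⟩
  · rw [hmP] at key
    have : (1 : K) = xR * 0 := key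
    simp at this
  · rw [hmP] at key
    have hx' : x' = xR := by simpa using key
    subst hx'
    rcases Affine.Y_eq_of_X_eq h'.1 hR.1 rfl with hy | hy
    · subst hy
      exact ⟨_, hmP, rfl⟩
    · refine ⟨-Point.some x y h, ?_, by simp⟩
      rw [smul_neg, hmP, Point.neg_some]
      subst hy
      simp only [Affine.negY_negY]

/-- there are at least `m ^ 2` points killed by `m`. -/
theorem exists_tors_finset (hΔ : V.Δ ≠ 0) {m : ℕ} (hm : 2 ≤ m) :
    ∃ T : Finset V.Point, T.card = m ^ 2 ∧ ∀ Q ∈ T, m • Q = 0 := by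
  set A := (lad V m).1 with hAdef
  set B := (lad V m).2 with hBdef
  set w := derivative A * B - A * derivative B with hw
  have hw0 : w ≠ 0 := lad_wronskian_ne_zero V hm
  obtain ⟨x₀, hx₀⟩ := Infinite.exists_notMem_finset
    (w.roots.toFinset.image (fun x₁ => A.eval x₁ / B.eval x₁))
  set F : K[X] := A - C x₀ * B with hF
  have hm0 : m ≠ 0 := by omega
  have hm2 : m ^ 2 ≠ 0 := pow_ne_zero 2 hm0
  have hlead : IsLead F (m ^ 2) 1 := by
    have h1 := (lad_isLead V m).1
    have h2 := ((tors_B_isLead V hm0).mono (d := m ^ 2) (by omega)).C_mul x₀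
    exact (h1.sub h2).congr rfl (by simp)
  have hF0 : F ≠ 0 := by
    intro h0
    have := hlead.2
    rw [h0, coeff_zero] at this
    exact zero_ne_one this
  have hdeg : F.natDegree = m ^ 2 := by
    refine le_antisymm hlead.1 (le_natDegree_of_ne_zero ?_)
    rw [hlead.2]
    exact one_ne_zero
  have hsep : F.Separable := by
    rw [separable_def, isCoprime_iff_aeval_ne_zero_of_isAlgClosed (k := K) K]
    intro a
    by_contra hcon
    push Not at hcon
    obtain ⟨h1, h2⟩ := hcon
    rw [coe_aeval_eq_eval] at h1 h2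
    rw [hF, eval_sub, eval_mul, eval_C] at h1
    rw [hF, derivative_sub, derivative_C_mul, eval_sub, eval_mul, eval_C] at h2
    have hwa : w.eval a = 0 := by
      rw [hw, eval_sub, eval_mul, eval_mul]
      linear_combination (B.eval a) * h2 - (derivative B).eval a * h1
    have hBa : B.eval a ≠ 0 := by
      intro hB0
      rcases lad_not_both_zero V hΔ m a with h | h
      · apply h
        rw [hB0, mul_zero, sub_zero] at h1
        exact h1
      · exact h hB0
    apply hx₀
    rw [Finset.mem_image]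
    refine ⟨a, ?_, ?_⟩
    · rw [Multiset.mem_toFinset, mem_roots hw0]
      exact hwa
    · rw [div_eq_iff hBa]
      linear_combination h1
  have hcard : F.roots.toFinset.card = m ^ 2 := by
    rw [Multiset.toFinset_card_of_nodup (nodup_roots hsep), IsAlgClosed.card_roots_eq_natDegree,
      hdeg]
  obtain ⟨y₀, h₀⟩ := Fermat.Agent.S51.exists_nonsingular V hΔ x₀
  have hex : ∀ x : K, ∃ Q : V.Point, x ∈ F.roots.toFinset →
      m • Q = Point.some x₀ y₀ h₀ ∧ pX Q = x := by
    intro x
    by_cases hx : x ∈ F.roots.toFinset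
    · rw [Multiset.mem_toFinset, mem_roots hF0] at hx
      obtain ⟨Q, hQ⟩ := exists_nsmul_eq_of_root V hΔ h₀ hx
      exact ⟨Q, fun _ => hQ⟩
    · exact ⟨0, fun h => absurd h hx⟩
  choose q hq using hex
  obtain ⟨x', hx'⟩ : F.roots.toFinset.Nonempty := by
    rw [← Finset.card_pos, hcard]
    omega
  refine ⟨F.roots.toFinset.image (fun x => q x - q x'), ?_, ?_⟩
  · rw [Finset.card_image_of_injOn, hcard]
    intro a ha b hb hab
    have h1 : q a = q b := sub_left_injective hab
    rw [← (hq a ha).2, h1, (hq b hb).2]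
  · intro Q hQ
    rw [Finset.mem_image] at hQ
    obtain ⟨a, ha, rfl⟩ := hQ
    rw [smul_sub, (hq a ha).1, (hq x' hx').1, sub_self]

theorem not_cyclic (hΔ : V.Δ ≠ 0) {p : ℕ} (hp : p.Prime) (P : V.Point) :
    ∃ Q : V.Point, p • Q = 0 ∧ ∀ k : ℕ, Q ≠ k • P := by
  by_contra hcon
  push Not at hcon
  obtain ⟨T, hT, hT0⟩ := exists_tors_finset V hΔ hp.two_le
  have := card_le_of_multiples P hp.pos T (fun Q hQ => ⟨hT0 Q hQ, hcon Q (hT0 Q hQ)⟩)
  rw [hT] at this
  have h2 := hp.two_le
  nlinarith

end Gen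

end Fermat.Agent.S41.E6
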